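/-
S37 / task P-G2 (helper71): norm integrality along a finite map, generic core.

Setting: `φ : F →ₐ[K] F'` a map of fields over `K`, valuation subrings `O ⊆ F`, `O' ⊆ F'` with
`φ f ∈ O' → f ∈ O`, and the residue-plumbing data `H80.ResData A O' (φ x) θ` of helper80 for the
base function `φ x` upstairs (an orthonormal `K(φ x)`-basis of `F'` with unit Gram determinant).

Then every `g ∈ O'` is integral over `O` (along `φ`), hence its norm down to `F` lies in `O`.

Proof: `g` is a root of the characteristic polynomial of the multiplication by `g` in the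
orthonormal basis; its coefficients lie in `O' ∩ K(φ x)`, and `K(φ x) = φ (K(x))`.
-/
import Fermat.Agent.S18.H80.Trace
import Fermat.Prelude.Def_AlgebraicCurve_Correspondence

set_option autoImplicit false
set_option linter.style.haveILetI false

open IntermediateField Polynomial AlgebraicCurve

noncomputable section

namespace Fermat.Agent.S37.H71

variable {K F F' : Type*} [Field K] [Field F] [Field F'] [Algebra K F] [Algebra K F']

/-- `K(φ x) = φ (K(x))`, elementwise. -/
theorem exists_of_mem_adjoin_map (φ : F →ₐ[K] F') (x : F) {c : F'} (hc : c ∈ K⟮φ x⟯) :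
    ∃ c₀ ∈ K⟮x⟯, φ c₀ = c := by
  have h : K⟮φ x⟯ = (K⟮x⟯).map φ := by
    rw [IntermediateField.adjoin_map, Set.image_singleton]
  rw [h] at hc
  obtain ⟨c₀, hc₀, rfl⟩ := hc
  exact ⟨c₀, hc₀, rfl⟩

/-- Every element of the Gauss ring upstairs is integral over the Gauss ring downstairs. -/
theorem isIntegralElem_of_resData (φ : F →ₐ[K] F') {A : ValuationSubring K}
    (O : ValuationSubring F) (O' : ValuationSubring F') (x : F) {μ : ℕ} {θ : Fin μ → F'}
    (D : Fermat.Agent.S18.H80.ResData A O' (φ x) θ)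
    (hV : ∀ f : F, φ f ∈ O' → f ∈ O) {g : F'} (hg : g ∈ O') :
    (φ.toRingHom.comp O.subtype).IsIntegralElem g := by
  set P := D.charpolyO ⟨g, hg⟩ with hP
  set ι : ↥(Fermat.Agent.S18.H80.OL (K := K) O' (φ x)) →+* F' :=
    O'.subtype.comp (algebraMap ↥(Fermat.Agent.S18.H80.OL (K := K) O' (φ x)) ↥O') with hι
  have hmonic : (P.map ι).Monic := (D.charpolyO_monic _).map ι
  have hlift : P.map ι ∈ Polynomial.lifts (φ.toRingHom.comp O.subtype) := by
    rw [Polynomial.lifts_iff_coeff_lifts]
    intro n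
    rw [Polynomial.coeff_map]
    obtain ⟨c₀, -, hc₀⟩ := exists_of_mem_adjoin_map φ x (P.coeff n).1.2
    have hc₀' : φ c₀ = ι (P.coeff n) := hc₀
    have hmem : c₀ ∈ O := hV c₀ (by rw [hc₀']; exact (algebraMap _ ↥O' (P.coeff n)).2)
    exact ⟨⟨c₀, hmem⟩, hc₀'⟩
  obtain ⟨q, hq, -, hqm⟩ := Polynomial.lifts_and_natDegree_eq_and_monic hlift hmonic
  refine ⟨q, hqm, ?_⟩
  have h1 := congrArg O'.subtype (D.eval₂_charpolyO ⟨g, hg⟩)
  rw [Polynomial.hom_eval₂, map_zero] at h1
  have h2 : (q.map (φ.toRingHom.comp O.subtype)).eval₂ (RingHom.id F') g = 0 := by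
    rw [hq, Polynomial.eval₂_map, RingHom.id_comp]
    exact h1
  rwa [Polynomial.eval₂_map, RingHom.id_comp] at h2

/-- **Norm integrality.**  The norm (along `φ`) of an element of the Gauss ring upstairs lies in
the Gauss ring downstairs. -/
theorem norm_mem_of_resData (φ : F →ₐ[K] F') {A : ValuationSubring K}
    (O : ValuationSubring F) (O' : ValuationSubring F') (x : F) {μ : ℕ} {θ : Fin μ → F'}
    (D : Fermat.Agent.S18.H80.ResData A O' (φ x) θ)
    (hV : ∀ f : F, φ f ∈ O' → f ∈ O) {g : F'} (hg : g ∈ O') :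
    (letI := algebraAlong φ; Algebra.norm F g) ∈ O := by
  letI := algebraAlong φ
  letI : Algebra ↥O F' := (φ.toRingHom.comp O.subtype).toAlgebra
  haveI : IsScalarTower ↥O F F' := IsScalarTower.of_algebraMap_eq fun _ => rfl
  have hint : IsIntegral ↥O g := isIntegralElem_of_resData φ O O' x D hV hg
  have hn : IsIntegral ↥O (Algebra.norm F g) := Algebra.isIntegral_norm F hint
  obtain ⟨y, hy⟩ := IsIntegrallyClosed.isIntegral_iff.1 hn
  rw [← hy]
  exact y.2

end Fermat.Agent.S37.H71
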