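/-
S37 / task P-G2 (helper71): the degeneracy map `V = heckeBetaBar` (`q ↦ q^p`) and the Gauss rings.

For `ℓ ∤ N p`, `O_M := H66.gaussO A M` the Gauss valuation ring of `F_M`:
* (V1) `f ∈ O_N ↔ V f ∈ O_{N p}`;
* (V2) `f ∈ 𝔪(O_N) ↔ V f ∈ 𝔪(O_{N p})`;
* `V (j(q^N)) = j(q^{N p})`.
-/
import Fermat.Agent.S18.H66.GaussRing
import Fermat.Agent.S18.H74.TopDefs
import Fermat.Agent.S18.H28.BridgeDefs
import Fermat.Prelude.Def_ModularCurve_HeckeOperator

set_option autoImplicit false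

open ModularCurve AlgebraicCurve IntermediateField

noncomputable section

namespace Fermat.Agent.S37.H71

open Fermat.Agent.S18.H74 Fermat.Agent.S18

/-- Coefficientwise maps commute with `q ↦ q^n`. -/
theorem coeffMap_qExpand {R S : Type*} [CommRing R] [CommRing S] (f : R →+* S) (n : ℕ)
    [NeZero n] (x : LaurentSeries R) : coeffMap f (qExpand R n x) = qExpand S n (coeffMap f x) := by
  ext k
  by_cases hk : (n : ℤ) ∣ k
  · obtain ⟨m, rfl⟩ := hk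
    rw [coeffMap_coeff, qExpand_coeff_mul, qExpand_coeff_mul, coeffMap_coeff]
  · rw [coeffMap_coeff, qExpand_coeff_of_not_dvd n _ hk, qExpand_coeff_of_not_dvd n _ hk,
      map_zero]

section V

variable (N p : ℕ) [NeZero N] [NeZero p] {ℓ : ℕ} [Fact ℓ.Prime] (A : ValuationSubring Kb)
  (hA : A.LiesOverPrime ℓ) (hℓ : ¬ ℓ ∣ N) (hℓ' : ¬ ℓ ∣ N * p)

/-- (V1), forward direction. -/
theorem beta_mem_gaussO {f : FN N} (hf : f ∈ H66.gaussO A N hA hℓ) :
    heckeBetaBar Kb N p f ∈ H66.gaussO A (N * p) hA hℓ' := by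
  rw [H66.mem_gaussO_iff] at hf ⊢
  obtain ⟨y₁, y₂, hy, hyF, hfy⟩ := hf
  refine ⟨qExpand A p y₁, qExpand A p y₂, ?_, ?_, ?_⟩
  · rw [coeffMap_qExpand]
    intro h
    exact hy (qExpand_injective p (h.trans (map_zero _).symm))
  · rw [coeffMap_qExpand]
    exact (heckeBetaBar Kb N p ⟨_, hyF⟩).2
  · rw [coe_heckeBetaBar, coeffMap_qExpand, coeffMap_qExpand, ← map_mul, hfy]

/-- (V2), forward direction. -/
theorem beta_mem_nonunits_gaussO {f : FN N} (hf : f ∈ (H66.gaussO A N hA hℓ).nonunits) :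
    heckeBetaBar Kb N p f ∈ (H66.gaussO A (N * p) hA hℓ').nonunits := by
  rw [H66.mem_nonunits_gaussO_iff] at hf ⊢
  obtain ⟨y₁, y₂, hy₁, hy, hyF, hfy⟩ := hf
  refine ⟨qExpand A p y₁, qExpand A p y₂, ?_, ?_, ?_, ?_⟩
  · rw [coeffMap_qExpand, hy₁, map_zero]
  · rw [coeffMap_qExpand]
    intro h
    exact hy (qExpand_injective p (h.trans (map_zero _).symm))
  · rw [coeffMap_qExpand]
    exact (heckeBetaBar Kb N p ⟨_, hyF⟩).2
  · rw [coe_heckeBetaBar, coeffMap_qExpand, coeffMap_qExpand, ← map_mul, hfy]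

/-- **(V1)** `f ∈ O_N ↔ V f ∈ O_{N p}`. -/
theorem beta_mem_gaussO_iff (f : FN N) :
    heckeBetaBar Kb N p f ∈ H66.gaussO A (N * p) hA hℓ' ↔ f ∈ H66.gaussO A N hA hℓ := by
  refine ⟨fun h => ?_, fun h => beta_mem_gaussO N p A hA hℓ hℓ' h⟩
  by_contra hf
  have hinv : f⁻¹ ∈ (H66.gaussO A N hA hℓ).nonunits := by
    rw [ValuationSubring.mem_nonunits_iff_or, inv_inv]
    exact Or.inr hf
  have h1 := beta_mem_nonunits_gaussO N p A hA hℓ hℓ' hinv
  rw [map_inv₀, ValuationSubring.mem_nonunits_iff_or, inv_inv, inv_eq_zero, map_eq_zero] at h1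
  rcases h1 with h1 | h1
  · exact hf (h1 ▸ (H66.gaussO A N hA hℓ).zero_mem)
  · exact h1 h

/-- **(V2)** `f ∈ 𝔪(O_N) ↔ V f ∈ 𝔪(O_{N p})`. -/
theorem beta_mem_nonunits_gaussO_iff (f : FN N) :
    heckeBetaBar Kb N p f ∈ (H66.gaussO A (N * p) hA hℓ').nonunits ↔
      f ∈ (H66.gaussO A N hA hℓ).nonunits := by
  refine ⟨fun h => ?_, fun h => beta_mem_nonunits_gaussO N p A hA hℓ hℓ' h⟩
  rw [ValuationSubring.mem_nonunits_iff_or] at h ⊢
  by_contra hcon
  push Not at hcon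
  obtain ⟨hf0, hinv⟩ := hcon
  have h1 := beta_mem_gaussO N p A hA hℓ hℓ' hinv
  rw [map_inv₀] at h1
  rcases h with h | h
  · exact hf0 ((map_eq_zero _).1 h)
  · exact h h1

end V

/-- `V (j(q^N)) = j(q^{N p})`. -/
theorem beta_jtop (N p : ℕ) [NeZero N] [NeZero p] :
    heckeBetaBar Kb N p (H28.jtop N) = H28.jtop (N * p) := by
  apply Subtype.ext
  rw [coe_heckeBetaBar, H28.coe_jFN, H28.coe_jFN, H66.coeffEmb_qExpand_jq, H66.coeffEmb_qExpand_jq,
    qExpand_qExpand]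
  exact qExpand_congr (mul_comm p N) _

end Fermat.Agent.S37.H71
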