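/-
S37 / task P-G2 (helper71): norm integrality (V3) for the Gauss rings of the modular function
fields.

* `exists_resData_top` : for every level `M` prime to `ℓ`, the function field `F_M` with its Gauss
  ring and the base function `j(q^M)` carries helper80's residue-plumbing data (an orthonormal
  `ℚ̄(j(q^M))`-basis with unit Gram determinant).  No branch hypothesis: valid for `ℓ = 2, 3` too.
* `norm_mem_gaussO` : **(V3)** for `V = heckeBetaBar ℚ̄ N p : F_N → F_{N p}` and `ℓ ∤ N p`, the norm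
  along `V` maps the Gauss ring of `F_{N p}` into the Gauss ring of `F_N`.
* `isIntegral_gaussO` : every element of the Gauss ring of `F_{N p}` is integral over the Gauss
  ring of `F_N` (along `V`).
-/
import Fermat.Agent.S37.H71.NormInt
import Fermat.Agent.S37.H71.VGauss
import Fermat.Agent.S18.H85.BasisDeg
import Fermat.Agent.S18.H66.Leaves
import Fermat.Agent.S18.H28.TopDeg
import Fermat.Agent.S18.H28.TopFacts
import Fermat.Agent.S18.H28.Ratio

set_option autoImplicit false
set_option linter.style.haveILetI false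

open ModularCurve AlgebraicCurve IntermediateField

noncomputable section

namespace Fermat.Agent.S37.H71

open Fermat.Agent.S18.H74 Fermat.Agent.S18

/-- The Gauss ring has the Gauss carrier (ratios of `A`-integral series, no membership condition
on the denominator). -/
theorem mem_gaussO_iff_ratio (M : ℕ) [NeZero M] {ℓ : ℕ} [Fact ℓ.Prime] (A : ValuationSubring Kb)
    (hA : A.LiesOverPrime ℓ) (hℓM : ¬ ℓ ∣ M) (f : FN M) :
    f ∈ H66.gaussO A M hA hℓM ↔ ∃ y₁ y₂ : LaurentSeries A,
      coeffMap (IsLocalRing.residue A) y₂ ≠ 0 ∧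
        (f : LaurentSeries Kb) * coeffMap A.subtype y₂ = coeffMap A.subtype y₁ := by
  obtain ⟨O, hO, -⟩ := H66.exists_gaussRing M hℓM A hA
  have h := H85.eq_gaussO M hℓM A hA O hO
  rw [← h]
  exact hO f

/-- `A ≠ ⊤` for a valuation subring over a prime. -/
theorem ne_top_of_liesOver {ℓ : ℕ} [Fact ℓ.Prime] (A : ValuationSubring Kb)
    (hA : A.LiesOverPrime ℓ) : A ≠ ⊤ := by
  rintro rfl
  have h1 : ((ℓ : ℕ) : Kb) ∈ (⊤ : ValuationSubring Kb).nonunits := hA
  rw [ValuationSubring.mem_nonunits_iff_or] at h1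
  rcases h1 with h1 | h1
  · exact (Nat.cast_ne_zero.mpr (Fact.out : ℓ.Prime).ne_zero) h1
  · exact h1 (ValuationSubring.mem_top _)

/-- **Residue-plumbing data for the top function.**  For every level `M` prime to `ℓ`: the
hypotheses `H80.ResData` hold for the Gauss ring of `F_M` and the base function `j(q^M)`. -/
theorem exists_resData_top (M : ℕ) [NeZero M] {ℓ : ℕ} [Fact ℓ.Prime] (A : ValuationSubring Kb)
    (hA : A.LiesOverPrime ℓ) (hℓM : ¬ ℓ ∣ M) :
    ∃ θ : Fin (Module.finrank Kb⟮H28.jtop M⟯ (FN M)) → FN M,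
      H80.ResData A (H66.gaussO A M hA hℓM) (H28.jtop M) θ := by
  have hO := mem_gaussO_iff_ratio M A hA hℓM
  have hx : ((H28.jtop M : FN M) : LaurentSeries Kb) = coeffMap A.subtype (H28.jA A M) := by
    rw [H28.coe_jFN]
    exact (H28.incA_jA A M).symm
  have hred : coeffMap (IsLocalRing.residue A) (H28.jA A M) = jqNModC (H28.kA A) M :=
    H28.redA_jA A M
  have htr : Transcendental (IsLocalRing.ResidueField A)
      (coeffMap (IsLocalRing.residue A) (H28.jA A M)) := by
    rw [hred]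
    exact H28.transcendental_jqNModC _ M
  have hfin : FiniteDimensional Kb⟮H28.jtop M⟯ (FN M) := H28.finite_top M
  obtain ⟨θ, hθ, hg⟩ := H85.basis_of_degree M hℓM A hA (H66.gaussO A M hA hℓM) hO
    (H28.jA A M) (H28.jtop M) hx
    (by rw [hred]; exact jqModCd_mem_full _ M dvd_rfl) htr hfin
    (by rw [hred]; exact (H28.finrank_top_le M).trans (H28.psi_le_relfinrank_kA M hℓM A hA))
    (by rw [hred]; exact H28.separable_kA M hℓM A hA)
  exact ⟨θ, ne_top_of_liesOver A hA, H66.algebraMap_mem_gaussO_iff A M hA hℓM,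
    H66.ratio_gauss hO (H28.jA A M) (H28.jtop M) hx htr, H66.exists_scale_gaussO A M hA hℓM,
    hfin, rfl, hθ, hg⟩

/-- The same for any presentation of the base function. -/
theorem exists_resData_of_eq (M : ℕ) [NeZero M] {ℓ : ℕ} [Fact ℓ.Prime] (A : ValuationSubring Kb)
    (hA : A.LiesOverPrime ℓ) (hℓM : ¬ ℓ ∣ M) (x : FN M) (hx : x = H28.jtop M) :
    ∃ (μ : ℕ) (θ : Fin μ → FN M), H80.ResData A (H66.gaussO A M hA hℓM) x θ := by
  subst hx
  obtain ⟨θ, D⟩ := exists_resData_top M A hA hℓM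
  exact ⟨_, θ, D⟩

section V

variable (N p : ℕ) [NeZero N] [NeZero p] {ℓ : ℕ} [Fact ℓ.Prime] (A : ValuationSubring Kb)
  (hA : A.LiesOverPrime ℓ) (hℓ : ¬ ℓ ∣ N) (hℓ' : ¬ ℓ ∣ N * p)

/-- Every element of the Gauss ring of `F_{N p}` is integral over the Gauss ring of `F_N`
(along `V = heckeBetaBar`). -/
theorem isIntegralElem_gaussO {g : FN (N * p)} (hg : g ∈ H66.gaussO A (N * p) hA hℓ') :
    ((heckeBetaBar Kb N p).toRingHom.comp (H66.gaussO A N hA hℓ).subtype).IsIntegralElem g := by
  obtain ⟨μ, θ, D⟩ := exists_resData_of_eq (N * p) A hA hℓ' _ (beta_jtop N p)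
  exact isIntegralElem_of_resData (heckeBetaBar Kb N p) (H66.gaussO A N hA hℓ)
    (H66.gaussO A (N * p) hA hℓ') (H28.jtop N) D
    (fun f hf => (beta_mem_gaussO_iff N p A hA hℓ hℓ' f).1 hf) hg

/-- **(V3) Norm integrality**: the norm along `V = heckeBetaBar ℚ̄ N p` maps the Gauss ring of
`F_{N p}` into the Gauss ring of `F_N`. -/
theorem norm_mem_gaussO {g : FN (N * p)} (hg : g ∈ H66.gaussO A (N * p) hA hℓ') :
    (letI := algebraAlong (heckeBetaBar Kb N p); Algebra.norm (FN N) g) ∈
      H66.gaussO A N hA hℓ := by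
  obtain ⟨μ, θ, D⟩ := exists_resData_of_eq (N * p) A hA hℓ' _ (beta_jtop N p)
  exact norm_mem_of_resData (heckeBetaBar Kb N p) (H66.gaussO A N hA hℓ)
    (H66.gaussO A (N * p) hA hℓ') (H28.jtop N) D
    (fun f hf => (beta_mem_gaussO_iff N p A hA hℓ hℓ' f).1 hf) hg

end V

end Fermat.Agent.S37.H71
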